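import Fermat.Agent.S13.Ladder.Defs

/-!
# S13 library, T1: degrees and leading coefficients of the ladder polynomials

Over any commutative ring `R`, for the polynomial parameters `(C b₂, C b₄, C b₆, C b₈, X)`:
`Aₙ` has degree `≤ n²` with coefficient `1` at `n²`, `Bₙ` has degree `≤ n² - 1` with coefficient
`n²` at `n² - 1`, and `Cₘ = Aₘ₊₁Bₘ - AₘBₘ₊₁` (a square root of `B₂ₘ₊₁`) has degree `≤ 2m² + 2m` with
coefficient `-(2m+1)` there.  These follow directly from the recursion (no EDS theory).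
-/

set_option autoImplicit false

namespace Fermat.Agent.S13

open Polynomial

variable {R : Type*} [CommRing R]

/-- `p` has degree at most `N` and coefficient `c` at `N`. -/
structure LdTop (p : R[X]) (N : ℕ) (c : R) : Prop where
  deg : p.natDegree ≤ N
  top : p.coeff N = c

namespace LdTop

variable {p q : R[X]} {M N : ℕ} {c d : R}

lemma mul (hp : LdTop p M c) (hq : LdTop q N d) : LdTop (p * q) (M + N) (c * d) :=
  ⟨natDegree_mul_le_of_le hp.deg hq.deg, by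
    rw [coeff_mul_add_eq_of_natDegree_le hp.deg hq.deg, hp.top, hq.top]⟩

lemma pow (hp : LdTop p M c) (k : ℕ) : LdTop (p ^ k) (k * M) (c ^ k) :=
  ⟨natDegree_pow_le_of_le k hp.deg, by rw [coeff_pow_of_natDegree_le hp.deg, hp.top]⟩

lemma add (hp : LdTop p N c) (hq : LdTop q N d) : LdTop (p + q) N (c + d) :=
  ⟨natDegree_add_le_of_degree_le hp.deg hq.deg, by rw [coeff_add, hp.top, hq.top]⟩

lemma sub (hp : LdTop p N c) (hq : LdTop q N d) : LdTop (p - q) N (c - d) :=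
  ⟨(natDegree_sub_le_of_le hp.deg hq.deg).trans (by simp), by rw [coeff_sub, hp.top, hq.top]⟩

lemma low (h : q.natDegree ≤ M) (hMN : M < N) : LdTop q N 0 :=
  ⟨h.trans hMN.le, coeff_eq_zero_of_natDegree_lt (h.trans_lt hMN)⟩

lemma congr (hp : LdTop p M c) (hM : M = N) (hc : c = d) : LdTop p N d := by
  subst hM hc; exact hp

end LdTop

lemma ldTop_X' : LdTop (X : R[X]) 1 1 := ⟨natDegree_X_le, coeff_X_one⟩

lemma ldTop_one : LdTop (1 : R[X]) 0 1 := ⟨by simp, by simp⟩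

lemma ldTop_zero (N : ℕ) : LdTop (0 : R[X]) N 0 := ⟨by simp, by simp⟩

lemma ldTop_two : LdTop (2 : R[X]) 0 2 := ⟨by simp, by simp⟩

lemma ldTop_four : LdTop (4 : R[X]) 0 4 := ⟨by simp, by simp⟩

/-- Degree data for the doubling step. -/
lemma ld_dbl_top (p : LdPar R[X]) (h₂ : p.β₂.natDegree ≤ 0) (h₄ : p.β₄.natDegree ≤ 0)
    (h₆ : p.β₆.natDegree ≤ 0) (h₈ : p.β₈.natDegree ≤ 0) {a b : R[X]} {N : ℕ} {c : R}
    (hN : 1 ≤ N) (ha : LdTop a N 1) (hb : LdTop b (N - 1) c) :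
    LdTop (ldDupNum p a b) (4 * N) 1 ∧ LdTop (ldDupDen p a b) (4 * N - 1) (4 * c) := by
  have hda := ha.deg
  have hdb := hb.deg
  refine ⟨?_, ?_⟩
  · have t1 : LdTop (a ^ 4) (4 * N) 1 := (ha.pow 4).congr rfl (one_pow 4)
    have t2 : LdTop (p.β₄ * a ^ 2 * b ^ 2) (4 * N) 0 :=
      LdTop.low (M := 4 * N - 2) (by compute_degree; omega) (by omega)
    have t3 : LdTop (2 * p.β₆ * a * b ^ 3) (4 * N) 0 :=
      LdTop.low (M := 4 * N - 3) (by compute_degree; omega) (by omega)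
    have t4 : LdTop (p.β₈ * b ^ 4) (4 * N) 0 :=
      LdTop.low (M := 4 * N - 4) (by compute_degree; omega) (by omega)
    exact (((t1.sub t2).sub t3).sub t4).congr rfl (by ring)
  · have s1 : LdTop (4 * a ^ 3) (3 * N) 4 :=
      (ldTop_four.mul (ha.pow 3)).congr (by omega) (by ring)
    have s2 : LdTop (p.β₂ * a ^ 2 * b) (3 * N) 0 :=
      LdTop.low (M := 3 * N - 1) (by compute_degree; omega) (by omega)
    have s3 : LdTop (2 * p.β₄ * a * b ^ 2) (3 * N) 0 :=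
      LdTop.low (M := 3 * N - 2) (by compute_degree; omega) (by omega)
    have s4 : LdTop (p.β₆ * b ^ 3) (3 * N) 0 :=
      LdTop.low (M := 3 * N - 3) (by compute_degree; omega) (by omega)
    exact (hb.mul (((s1.add s2).add s3).add s4)).congr (by omega) (by ring)

/-- Degree data for the differential addition step. -/
lemma ld_add_top (p : LdPar R[X]) (h₂ : p.β₂.natDegree ≤ 0) (h₄ : p.β₄.natDegree ≤ 0)
    (h₆ : p.β₆.natDegree ≤ 0) (hx : LdTop p.x 1 1) {a' b' a b : R[X]} {N₁ N₀ : ℕ} {c₁ c₀ : R}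
    (hN₁ : 1 ≤ N₁) (hN₀ : 1 ≤ N₀) (ha' : LdTop a' N₁ 1) (hb' : LdTop b' (N₁ - 1) c₁)
    (ha : LdTop a N₀ 1) (hb : LdTop b (N₀ - 1) c₀) :
    LdTop (ldAddNum p a' b' a b) (2 * N₁ + 2 * N₀ - 1) (2 * (c₀ + c₁) - (c₀ - c₁) ^ 2) ∧
      LdTop (ldDiff a' b' a b) (2 * N₁ + 2 * N₀ - 2) ((c₀ - c₁) ^ 2) := by
  have hda' := ha'.deg
  have hdb' := hb'.deg
  have hda := ha.deg
  have hdb := hb.deg
  have u1 : LdTop (a' * b) (N₁ + N₀ - 1) c₀ := (ha'.mul hb).congr (by omega) (by ring)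
  have u2 : LdTop (a * b') (N₁ + N₀ - 1) c₁ := (ha.mul hb').congr (by omega) (by ring)
  have D : LdTop ((a' * b - a * b') ^ 2) (2 * N₁ + 2 * N₀ - 2) ((c₀ - c₁) ^ 2) :=
    ((u1.sub u2).pow 2).congr (by omega) rfl
  refine ⟨?_, D⟩
  have s : LdTop (a' * b + a * b') (N₁ + N₀ - 1) (c₀ + c₁) := u1.add u2
  have m1 : LdTop (2 * a' * a * (a' * b + a * b')) (2 * N₁ + 2 * N₀ - 1) (2 * (c₀ + c₁)) :=
    (((ldTop_two.mul ha').mul ha).mul s).congr (by omega) (by ring)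
  have m2 : LdTop (p.β₂ * a' * a * b' * b) (2 * N₁ + 2 * N₀ - 1) 0 :=
    LdTop.low (M := 2 * N₁ + 2 * N₀ - 2) (by compute_degree; omega) (by omega)
  have m3 : LdTop (p.β₄ * (a' * b + a * b') * b' * b) (2 * N₁ + 2 * N₀ - 1) 0 := by
    refine LdTop.low (M := 0 + (N₁ + N₀ - 1) + (N₁ - 1) + (N₀ - 1)) ?_ (by omega)
    exact natDegree_mul_le_of_le (natDegree_mul_le_of_le (natDegree_mul_le_of_le h₄ s.deg)
      hdb') hdb
  have m4 : LdTop (p.β₆ * (b' * b) ^ 2) (2 * N₁ + 2 * N₀ - 1) 0 :=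
    LdTop.low (M := 2 * N₁ + 2 * N₀ - 4) (by compute_degree; omega) (by omega)
  have xD : LdTop (p.x * (a' * b - a * b') ^ 2) (2 * N₁ + 2 * N₀ - 1) ((c₀ - c₁) ^ 2) :=
    (hx.mul D).congr (by omega) (by ring)
  exact ((((m1.add m2).add m3).add m4).sub xD).congr rfl (by ring)

/-- The polynomial ladder parameters of a Weierstrass curve. -/
noncomputable def ldPoly (W : WeierstrassCurve R) : LdPar R[X] :=
  ⟨C W.b₂, C W.b₄, C W.b₆, C W.b₈, X⟩

/-- The full degree invariant of the ladder state. -/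
theorem ld_top_state (W : WeierstrassCurve R) (n : ℕ) :
    LdTop (ldState (ldPoly W) n).a (n ^ 2) 1 ∧
      LdTop (ldState (ldPoly W) n).b (n ^ 2 - 1) ((n ^ 2 : ℕ) : R) ∧
      LdTop (ldState (ldPoly W) n).a' ((n + 1) ^ 2) 1 ∧
      LdTop (ldState (ldPoly W) n).b' ((n + 1) ^ 2 - 1) (((n + 1) ^ 2 : ℕ) : R) := by
  have h₂ : (ldPoly W).β₂.natDegree ≤ 0 := by simp [ldPoly]
  have h₄ : (ldPoly W).β₄.natDegree ≤ 0 := by simp [ldPoly]
  have h₆ : (ldPoly W).β₆.natDegree ≤ 0 := by simp [ldPoly]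
  have h₈ : (ldPoly W).β₈.natDegree ≤ 0 := by simp [ldPoly]
  have hx : LdTop (ldPoly W).x 1 1 := ldTop_X'
  have hinit : LdTop (ldInit (ldPoly W)).a (0 ^ 2) 1 ∧
      LdTop (ldInit (ldPoly W)).b (0 ^ 2 - 1) ((0 ^ 2 : ℕ) : R) ∧
      LdTop (ldInit (ldPoly W)).a' ((0 + 1) ^ 2) 1 ∧
      LdTop (ldInit (ldPoly W)).b' ((0 + 1) ^ 2 - 1) (((0 + 1) ^ 2 : ℕ) : R) := by
    refine ⟨ldTop_one, ?_, hx.congr (by norm_num) rfl, ldTop_one.congr (by norm_num) (by simp)⟩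
    exact (ldTop_zero 0).congr (by norm_num) (by simp)
  -- generic steps for `n ≥ 1`
  have dblStep : ∀ (m : ℕ) (a b : R[X]), 1 ≤ m → LdTop a (m ^ 2) 1 →
      LdTop b (m ^ 2 - 1) ((m ^ 2 : ℕ) : R) →
      LdTop (ldDupNum (ldPoly W) a b) ((2 * m) ^ 2) 1 ∧
        LdTop (ldDupDen (ldPoly W) a b) ((2 * m) ^ 2 - 1) (((2 * m) ^ 2 : ℕ) : R) := by
    intro m a b hm ha hb
    have hN : 1 ≤ m ^ 2 := Nat.one_le_pow _ _ hm
    obtain ⟨r1, r2⟩ := ld_dbl_top (ldPoly W) h₂ h₄ h₆ h₈ hN ha hb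
    have e : (2 * m) ^ 2 = 4 * m ^ 2 := by ring
    exact ⟨r1.congr e.symm rfl, r2.congr (by rw [e]) (by push_cast; ring)⟩
  have addStep : ∀ (m : ℕ) (a' b' a b : R[X]), 1 ≤ m → LdTop a' ((m + 1) ^ 2) 1 →
      LdTop b' ((m + 1) ^ 2 - 1) (((m + 1) ^ 2 : ℕ) : R) → LdTop a (m ^ 2) 1 →
      LdTop b (m ^ 2 - 1) ((m ^ 2 : ℕ) : R) →
      LdTop (ldAddNum (ldPoly W) a' b' a b) ((2 * m + 1) ^ 2) 1 ∧
        LdTop (ldDiff a' b' a b) ((2 * m + 1) ^ 2 - 1) (((2 * m + 1) ^ 2 : ℕ) : R) := by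
    intro m a' b' a b hm ha' hb' ha hb
    have hN₀ : 1 ≤ m ^ 2 := Nat.one_le_pow _ _ hm
    have hN₁ : 1 ≤ (m + 1) ^ 2 := Nat.one_le_pow _ _ (by omega)
    obtain ⟨r1, r2⟩ := ld_add_top (ldPoly W) h₂ h₄ h₆ hx hN₁ hN₀ ha' hb' ha hb
    have e : (2 * m + 1) ^ 2 + 1 = 2 * (m + 1) ^ 2 + 2 * m ^ 2 := by ring
    exact ⟨r1.congr (by omega) (by push_cast; ring), r2.congr (by omega) (by push_cast; ring)⟩
  refine ldState_induction (ldPoly W)
    (fun n s => (n = 0 → s = ldInit (ldPoly W)) ∧ LdTop s.a (n ^ 2) 1 ∧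
      LdTop s.b (n ^ 2 - 1) ((n ^ 2 : ℕ) : R) ∧ LdTop s.a' ((n + 1) ^ 2) 1 ∧
      LdTop s.b' ((n + 1) ^ 2 - 1) (((n + 1) ^ 2 : ℕ) : R)) ⟨fun _ => rfl, hinit⟩ ?_ ?_ n |>.2
  · -- even step
    intro n s ⟨h0, ha, hb, ha', hb'⟩
    rcases Nat.eq_zero_or_pos n with hn | hn
    · subst hn
      rw [h0 rfl, ldStep_false_init]
      exact ⟨fun _ => rfl, hinit⟩
    · refine ⟨fun h => absurd h (by omega), ?_⟩
      obtain ⟨r1, r2⟩ := dblStep n s.a s.b hn ha hb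
      obtain ⟨r3, r4⟩ := addStep n s.a' s.b' s.a s.b hn ha' hb' ha hb
      exact ⟨r1, r2, r3, r4⟩
  · -- odd step
    intro n s ⟨h0, ha, hb, ha', hb'⟩
    refine ⟨fun h => absurd h (by omega), ?_⟩
    have e2 : 2 * n + 1 + 1 = 2 * (n + 1) := by ring
    rcases Nat.eq_zero_or_pos n with hn | hn
    · subst hn
      rw [h0 rfl]
      have hX : LdTop (X : R[X]) (1 ^ 2) 1 := hx.congr (by norm_num) rfl
      have h1 : LdTop (1 : R[X]) (1 ^ 2 - 1) ((1 ^ 2 : ℕ) : R) :=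
        ldTop_one.congr (by norm_num) (by simp)
      obtain ⟨r1, r2⟩ := dblStep 1 X 1 le_rfl hX h1
      refine ⟨?_, ?_, r1, r2⟩
      · have : ldAddNum (ldPoly W) X 1 1 0 = X := by
          simp only [ldAddNum, ldSum, ldDiff, ldPoly]; ring
        simp only [ldStep, ldInit, if_true]
        change LdTop (ldAddNum (ldPoly W) X 1 1 0) _ _
        rw [this]; exact hX
      · have : ldDiff (X : R[X]) 1 1 0 = 1 := by simp only [ldDiff]; ring
        simp only [ldStep, ldInit, if_true]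
        change LdTop (ldDiff (X : R[X]) 1 1 0) _ _
        rw [this]; exact h1
    · obtain ⟨r3, r4⟩ := addStep n s.a' s.b' s.a s.b hn ha' hb' ha hb
      obtain ⟨r1, r2⟩ := dblStep (n + 1) s.a' s.b' (by omega) ha' hb'
      rw [e2]
      exact ⟨r3, r4, r1, r2⟩

/-- `Aₙ` has degree `≤ n²` and coefficient `1` at `n²`. -/
theorem ldA_top (W : WeierstrassCurve R) (n : ℕ) : LdTop (ldA (ldPoly W) n) (n ^ 2) 1 :=
  (ld_top_state W n).1

/-- `Bₙ` has degree `≤ n² - 1` and coefficient `n²` at `n² - 1`. -/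
theorem ldB_top (W : WeierstrassCurve R) (n : ℕ) :
    LdTop (ldB (ldPoly W) n) (n ^ 2 - 1) ((n ^ 2 : ℕ) : R) :=
  (ld_top_state W n).2.1

/-- `Cₘ` has degree `≤ 2m² + 2m` and coefficient `-(2m+1)` there. -/
theorem ldC_top (W : WeierstrassCurve R) (m : ℕ) :
    LdTop (ldC (ldPoly W) m) (2 * m ^ 2 + 2 * m) (-((2 * m + 1 : ℕ) : R)) := by
  rcases Nat.eq_zero_or_pos m with hm | hm
  · subst hm
    have : ldC (ldPoly W) 0 = -1 := by simp [ldC]
    rw [this]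
    exact ⟨by simp, by simp⟩
  · have hA1 := ldA_top W (m + 1)
    have hB1 := ldB_top W (m + 1)
    have hA0 := ldA_top W m
    have hB0 := ldB_top W m
    have hN₀ : 1 ≤ m ^ 2 := Nat.one_le_pow _ _ hm
    have e : (m + 1) ^ 2 = m ^ 2 + 2 * m + 1 := by ring
    have u1 : LdTop (ldA (ldPoly W) (m + 1) * ldB (ldPoly W) m) (2 * m ^ 2 + 2 * m)
        ((m ^ 2 : ℕ) : R) := (hA1.mul hB0).congr (by omega) (by ring)
    have u2 : LdTop (ldA (ldPoly W) m * ldB (ldPoly W) (m + 1)) (2 * m ^ 2 + 2 * m)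
        (((m + 1) ^ 2 : ℕ) : R) := (hA0.mul hB1).congr (by omega) (by ring)
    exact (u1.sub u2).congr rfl (by push_cast; ring)

section domain

variable [CharZero R]

/-- `Aₙ` is monic of degree `n²`. -/
theorem ldA_natDegree (W : WeierstrassCurve R) (n : ℕ) :
    (ldA (ldPoly W) n).natDegree = n ^ 2 ∧ (ldA (ldPoly W) n).Monic := by
  have h := ldA_top W n
  have hd : (ldA (ldPoly W) n).natDegree = n ^ 2 := by
    refine le_antisymm h.deg (le_natDegree_of_ne_zero ?_)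
    rw [h.top]; exact one_ne_zero
  exact ⟨hd, by rw [Monic, leadingCoeff, hd, h.top]⟩

/-- `Cₘ` has degree exactly `2m² + 2m` (characteristic zero). -/
theorem ldC_natDegree (W : WeierstrassCurve R) (m : ℕ) :
    (ldC (ldPoly W) m).natDegree = 2 * m ^ 2 + 2 * m ∧ ldC (ldPoly W) m ≠ 0 := by
  have h := ldC_top W m
  have hc : (ldC (ldPoly W) m).coeff (2 * m ^ 2 + 2 * m) ≠ 0 := by
    rw [h.top, neg_ne_zero]
    exact_mod_cast (Nat.succ_ne_zero (2 * m))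
  refine ⟨le_antisymm h.deg (le_natDegree_of_ne_zero hc), ?_⟩
  intro h0
  rw [h0] at hc
  simp at hc

/-- `Bₙ` has degree exactly `n² - 1` for `n ≥ 1` (characteristic zero). -/
theorem ldB_natDegree (W : WeierstrassCurve R) {n : ℕ} (hn : 1 ≤ n) :
    (ldB (ldPoly W) n).natDegree = n ^ 2 - 1 ∧ ldB (ldPoly W) n ≠ 0 := by
  have h := ldB_top W n
  have hc : (ldB (ldPoly W) n).coeff (n ^ 2 - 1) ≠ 0 := by
    rw [h.top]
    have : n ^ 2 ≠ 0 := by positivity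
    exact_mod_cast this
  refine ⟨le_antisymm h.deg (le_natDegree_of_ne_zero hc), ?_⟩
  intro h0
  rw [h0] at hc
  simp at hc

end domain

end Fermat.Agent.S13
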