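import Fermat.Agent.S13.Ladder.Rep
import Fermat.Agent.S13.Ladder.Degree

/-!
# S13 library, T1: counting `n`-torsion (`n` odd, algebraically closed, characteristic zero)
-/

set_option autoImplicit false

namespace Fermat.Agent.S13

open Polynomial WeierstrassCurve WeierstrassCurve.Affine Fermat.Agent.S05

variable {K : Type*} [Field K]

/-! ### Bridge between the polynomial ladder and the value ladder -/

lemma ldPoly_map_eval (W : Affine K) (x₀ : K) :
    (ldPoly W).map (evalRingHom x₀) = ldParOf W x₀ := by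
  simp [ldPoly, LdPar.map, ldParOf]

lemma ldA_eval (W : Affine K) (x₀ : K) (n : ℕ) :
    (ldA (ldPoly W) n).eval x₀ = ldA (ldParOf W x₀) n := by
  have := ldA_map (evalRingHom x₀) (ldPoly W) n
  rwa [ldPoly_map_eval, coe_evalRingHom] at this

lemma ldB_eval (W : Affine K) (x₀ : K) (n : ℕ) :
    (ldB (ldPoly W) n).eval x₀ = ldB (ldParOf W x₀) n := by
  have := ldB_map (evalRingHom x₀) (ldPoly W) n
  rwa [ldPoly_map_eval, coe_evalRingHom] at this

lemma ldC_eval (W : Affine K) (x₀ : K) (m : ℕ) :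
    (ldC (ldPoly W) m).eval x₀ = ldC (ldParOf W x₀) m := by
  have := ldC_map (evalRingHom x₀) (ldPoly W) m
  rwa [ldPoly_map_eval, coe_evalRingHom] at this

section

variable [DecidableEq K] {W : Affine K}

/-- For odd `n = 2m+1`: `n • P₀ = 0 ↔ Cₘ(x₀) = 0`. -/
theorem ld_odd_nsmul_eq_zero_iff {x₀ y₀ : K} (h₀ : W.Nonsingular x₀ y₀) (m : ℕ) :
    (2 * m + 1) • Point.some x₀ y₀ h₀ = 0 ↔ (ldC (ldPoly W) m).eval x₀ = 0 := by
  rw [ld_nsmul_eq_zero_iff, ldB_two_mul_add_one_eq_sq, ldC_eval]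
  exact pow_eq_zero_iff two_ne_zero

/-- `Bₙ(x₀) ≠ 0` gives `x(n • P₀) = Aₙ(x₀) / Bₙ(x₀)`. -/
theorem ld_exists_nsmul {x₀ y₀ : K} (h₀ : W.Nonsingular x₀ y₀) (n : ℕ)
    (hB : (ldB (ldPoly W) n).eval x₀ ≠ 0) :
    ∃ (u w : K) (hq : W.Nonsingular u w), n • Point.some x₀ y₀ h₀ = Point.some u w hq ∧
      u * (ldB (ldPoly W) n).eval x₀ = (ldA (ldPoly W) n).eval x₀ := by
  rw [ldB_eval] at hB
  have hne : n • Point.some x₀ y₀ h₀ ≠ 0 := fun h => hB ((ld_nsmul_eq_zero_iff h₀ n).mp h)
  rcases hP : n • Point.some x₀ y₀ h₀ with _ | ⟨u, w, hq⟩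
  · exact absurd hP hne
  · refine ⟨u, w, hq, rfl, ?_⟩
    rw [ldA_eval, ldB_eval]
    exact (ld_x_nsmul h₀ n hP).2

/-- `Aₙ` and `Bₙ` have no common root among `x`-coordinates of nonsingular points. -/
theorem ld_eval_ne_zero {x₀ y₀ : K} (h₀ : W.Nonsingular x₀ y₀) (n : ℕ) :
    (ldA (ldPoly W) n).eval x₀ ≠ 0 ∨ (ldB (ldPoly W) n).eval x₀ ≠ 0 := by
  rw [ldA_eval, ldB_eval]
  exact ld_ne_zero h₀ n

end

/-! ### Points above a given `x` -/

/-- The quadratic polynomial in `y` cutting out the points above `x`. -/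
noncomputable def ldYPoly (W : Affine K) (x : K) : K[X] :=
  X ^ 2 + C (W.a₁ * x + W.a₃) * X - C (x ^ 3 + W.a₂ * x ^ 2 + W.a₄ * x + W.a₆)

lemma ldYPoly_natDegree (W : Affine K) (x : K) : (ldYPoly W x).natDegree = 2 := by
  rw [ldYPoly]; compute_degree!

lemma ldYPoly_ne_zero (W : Affine K) (x : K) : ldYPoly W x ≠ 0 := by
  intro h
  have := ldYPoly_natDegree W x
  rw [h] at this
  simp at this

lemma ldYPoly_eval_eq_zero_iff (W : Affine K) (x y : K) :
    (ldYPoly W x).eval y = 0 ↔ W.Equation x y := by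
  rw [Affine.equation_iff, ldYPoly]
  simp only [eval_sub, eval_add, eval_pow, eval_X, eval_mul, eval_C]
  constructor <;> intro h <;> linear_combination h

lemma ld_exists_point [IsAlgClosed K] {W : Affine K} (hΔ : W.Δ ≠ 0) (x : K) :
    ∃ y, W.Nonsingular x y := by
  obtain ⟨y, hy⟩ := IsAlgClosed.exists_root (ldYPoly W x) (by
    rw [degree_eq_natDegree (ldYPoly_ne_zero W x), ldYPoly_natDegree]; norm_num)
  exact ⟨y, (W.equation_iff_nonsingular_of_Δ_ne_zero hΔ).mp
    ((ldYPoly_eval_eq_zero_iff W x y).mp hy)⟩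

/-! ### The upper bound -/

section upper

variable {W : Affine K}

/-- Affine coordinates of a point (`none` at infinity). -/
def ldCoord : W.Point → Option (K × K)
  | .zero => none
  | .some x y _ => some (x, y)

lemma ldCoord_injective : Function.Injective (ldCoord (W := W)) := by
  intro P Q h
  rcases P with _ | ⟨x, y, hp⟩ <;> rcases Q with _ | ⟨x', y', hq⟩
  · rfl
  · simp [ldCoord] at h
  · simp [ldCoord] at h
  · simp only [ldCoord, Option.some.injEq, Prod.mk.injEq] at h
    obtain ⟨rfl, rfl⟩ := h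
    rfl

variable [DecidableEq K]

/-- The finite set of candidate coordinates of nonzero `(2m+1)`-torsion points. -/
noncomputable def ldCand (W : Affine K) (m : ℕ) : Finset (K × K) :=
  (ldC (ldPoly W) m).roots.toFinset.biUnion fun x =>
    (ldYPoly W x).roots.toFinset.image fun y => (x, y)

lemma ldCand_card_le (W : Affine K) (m : ℕ) : (ldCand W m).card ≤ 2 * (2 * m ^ 2 + 2 * m) := by
  refine (Finset.card_biUnion_le).trans ?_
  have h1 : ∀ x ∈ (ldC (ldPoly W) m).roots.toFinset,
      ((ldYPoly W x).roots.toFinset.image fun y => (x, y)).card ≤ 2 := by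
    intro x _
    refine Finset.card_image_le.trans ((Multiset.toFinset_card_le _).trans ?_)
    exact (card_roots' _).trans (ldYPoly_natDegree W x).le
  refine (Finset.sum_le_card_nsmul _ _ 2 h1).trans ?_
  rw [smul_eq_mul, mul_comm]
  refine Nat.mul_le_mul_left 2 ?_
  exact (Multiset.toFinset_card_le _).trans ((card_roots' _).trans (ldC_top W m).deg)

variable [CharZero K]

lemma ld_mem_ldCand {x y : K} (h : W.Nonsingular x y) {m : ℕ}
    (hP : (2 * m + 1) • Point.some x y h = 0) : (x, y) ∈ ldCand W m := by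
  rw [ldCand, Finset.mem_biUnion]
  refine ⟨x, ?_, Finset.mem_image.mpr ⟨y, ?_, rfl⟩⟩
  · rw [Multiset.mem_toFinset, mem_roots (ldC_natDegree W m).2, IsRoot]
    exact (ld_odd_nsmul_eq_zero_iff h m).mp hP
  · rw [Multiset.mem_toFinset, mem_roots (ldYPoly_ne_zero W x), IsRoot,
      ldYPoly_eval_eq_zero_iff]
    exact h.1

/-- **Upper bound**: at most `n²` points of odd order dividing `n = 2m+1`. -/
theorem ld_torsion_finite (W : Affine K) (m : ℕ) :
    {P : W.Point | (2 * m + 1) • P = 0}.Finite ∧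
      {P : W.Point | (2 * m + 1) • P = 0}.ncard ≤ (2 * m + 1) ^ 2 := by
  classical
  set t : Finset (Option (K × K)) := insert none ((ldCand W m).image some) with ht
  have hmaps : ∀ P ∈ {P : W.Point | (2 * m + 1) • P = 0}, ldCoord P ∈ (t : Set (Option (K × K))) := by
    intro P hP
    rcases P with _ | ⟨x, y, h⟩
    · simp [ldCoord, ht]
    · have := ld_mem_ldCand h hP
      simp only [ldCoord, ht, Finset.coe_insert, Finset.coe_image, Set.mem_insert_iff,
        Set.mem_image, Finset.mem_coe, reduceCtorEq, false_or]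
      exact ⟨(x, y), this, rfl⟩
  have hinj : Set.InjOn (ldCoord (W := W)) {P : W.Point | (2 * m + 1) • P = 0} :=
    ldCoord_injective.injOn
  refine ⟨Set.Finite.of_injOn hmaps hinj t.finite_toSet, ?_⟩
  refine (Set.ncard_le_ncard_of_injOn _ hmaps hinj t.finite_toSet).trans ?_
  rw [Set.ncard_coe_finset]
  refine (Finset.card_insert_le _ _).trans ?_
  have := (Finset.card_image_le (s := ldCand W m) (f := some)).trans (ldCand_card_le W m)
  have e : (2 * m + 1) ^ 2 = 2 * (2 * m ^ 2 + 2 * m) + 1 := by ring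
  omega

end upper

/-! ### The Wronskian and the lower bound -/

lemma LdTop.derivative {R : Type*} [CommRing R] {p : R[X]} {N : ℕ} {c : R} (hp : LdTop p N c) :
    LdTop (derivative p) (N - 1) ((N : R) * c) := by
  refine ⟨(natDegree_derivative_le p).trans (Nat.sub_le_sub_right hp.deg 1), ?_⟩
  rcases Nat.eq_zero_or_pos N with hN | hN
  · subst hN
    have : p.natDegree = 0 := Nat.le_zero.mp hp.deg
    rw [derivative_of_natDegree_zero this]
    simp
  · rw [coeff_derivative]
    have e : N - 1 + 1 = N := by omega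
    rw [e, hp.top]
    have : ((N - 1 : ℕ) : R) + 1 = (N : R) := by
      rw [← Nat.cast_add_one, e]
    rw [this, mul_comm]

/-- The Wronskian `Aₙ' Bₙ - Aₙ Bₙ'` has coefficient `n²` in degree `2n² - 2` (`n ≥ 2`). -/
lemma ld_wronskian_top {R : Type*} [CommRing R] (W : WeierstrassCurve R) {n : ℕ} (hn : 2 ≤ n) :
    LdTop (derivative (ldA (ldPoly W) n) * ldB (ldPoly W) n -
      ldA (ldPoly W) n * derivative (ldB (ldPoly W) n)) (2 * n ^ 2 - 2) ((n ^ 2 : ℕ) : R) := by
  have hN : 4 ≤ n ^ 2 := by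
    calc 4 = 2 ^ 2 := by norm_num
      _ ≤ n ^ 2 := Nat.pow_le_pow_left hn 2
  have hA := ldA_top W n
  have hB := ldB_top W n
  have hA' := hA.derivative
  have hB' := hB.derivative
  have u1 := (hA'.mul hB).congr (N := 2 * n ^ 2 - 2) (d := ((n ^ 2 : ℕ) : R) * ((n ^ 2 : ℕ) : R))
    (by omega) (by ring)
  have u2 := (hA.mul hB').congr (N := 2 * n ^ 2 - 2)
    (d := (((n ^ 2 : ℕ) : R) - 1) * ((n ^ 2 : ℕ) : R)) (by omega) (by
      rw [Nat.cast_sub (by omega : 1 ≤ n ^ 2)]; push_cast; ring)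
  exact (u1.sub u2).congr rfl (by ring)

section lower

variable [DecidableEq K] [IsAlgClosed K] [CharZero K] {W : Affine K}

/-- For all but finitely many `x₀`, the polynomial `Aₙ - x₀ Bₙ` is separable (`n ≥ 2`). -/
lemma ld_exists_separable (hΔ : W.Δ ≠ 0) {n : ℕ} (hn : 2 ≤ n) :
    ∃ x₀ : K, (ldA (ldPoly W) n - C x₀ * ldB (ldPoly W) n).Separable := by
  classical
  set A := ldA (ldPoly W) n with hA
  set B := ldB (ldPoly W) n with hB
  set w := derivative A * B - A * derivative B with hw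
  have hwtop := ld_wronskian_top W hn
  have hw0 : w ≠ 0 := by
    intro h0
    have := hwtop.top
    rw [← hA, ← hB, ← hw, h0, coeff_zero] at this
    have hn2 : n ^ 2 ≠ 0 := by positivity
    exact hn2 (by exact_mod_cast this.symm)
  set Bad : Finset K := w.roots.toFinset.image (fun a => A.eval a / B.eval a) with hBad
  obtain ⟨x₀, hx₀⟩ := Infinite.exists_notMem_finset Bad
  refine ⟨x₀, ?_⟩
  rw [separable_def]
  refine (isCoprime_iff_aeval_ne_zero_of_isAlgClosed K K _ _).mpr fun a => ?_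
  by_contra hcon
  rw [not_or, not_not, not_not, coe_aeval_eq_eval] at hcon
  obtain ⟨hG, hG'⟩ := hcon
  have hG1 : A.eval a = x₀ * B.eval a := by
    have : (A - C x₀ * B).eval a = 0 := hG
    rw [eval_sub, eval_mul, eval_C] at this
    exact sub_eq_zero.mp this
  have hG2 : (derivative A).eval a = x₀ * (derivative B).eval a := by
    have : (derivative (A - C x₀ * B)).eval a = 0 := hG'
    rw [derivative_sub, derivative_C_mul, eval_sub, eval_mul, eval_C] at this
    exact sub_eq_zero.mp this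
  have hwa : w.eval a = 0 := by
    rw [hw, eval_sub, eval_mul, eval_mul, hG1, hG2]; ring
  obtain ⟨y, hy⟩ := ld_exists_point hΔ a
  have hBa : B.eval a ≠ 0 := by
    intro hB0
    rcases ld_eval_ne_zero hy n with h | h
    · apply h
      rw [← hA, hG1, hB0, mul_zero]
    · exact h hB0
  apply hx₀
  rw [hBad, Finset.mem_image]
  refine ⟨a, ?_, ?_⟩
  · rw [Multiset.mem_toFinset, mem_roots hw0]; exact hwa
  · rw [hG1, mul_div_assoc, div_self hBa, mul_one]

omit [CharZero K] in
/-- Every root `a` of `Aₙ - x₀ Bₙ` is the `x`-coordinate of a point `R` with `n • R = Q₀`. -/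
lemma ld_exists_preimage (hΔ : W.Δ ≠ 0) (n : ℕ) {x₀ y₀ : K} (h₀ : W.Nonsingular x₀ y₀) {a : K}
    (ha : (ldA (ldPoly W) n - C x₀ * ldB (ldPoly W) n).eval a = 0) :
    ∃ R : W.Point, n • R = Point.some x₀ y₀ h₀ ∧ xOf R = a := by
  rw [eval_sub, eval_mul, eval_C, sub_eq_zero] at ha
  obtain ⟨y, hy⟩ := ld_exists_point hΔ a
  have hBa : (ldB (ldPoly W) n).eval a ≠ 0 := by
    intro hB0
    rcases ld_eval_ne_zero hy n with h | h
    · apply h
      rw [ha, hB0, mul_zero]
    · exact h hB0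
  obtain ⟨u, v, hq, hnR, hu⟩ := ld_exists_nsmul hy n hBa
  have hux : u = x₀ := by
    rw [ha] at hu
    exact mul_right_cancel₀ hBa hu
  subst hux
  rcases Y_eq_of_X_eq hq.1 h₀.1 rfl with hv | hv
  · subst hv
    exact ⟨Point.some a y hy, hnR, rfl⟩
  · refine ⟨-Point.some a y hy, ?_, by rw [xOf_neg]; rfl⟩
    rw [smul_neg, hnR, Point.neg_some]
    congr 1
    rw [hv, negY_negY]

/-- **Lower bound**: at least `n²` points killed by `n` (`n ≥ 2`). -/
lemma ld_torsion_card_ge (hΔ : W.Δ ≠ 0) {n : ℕ} (hn : 2 ≤ n)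
    (hfin : {P : W.Point | n • P = 0}.Finite) : n ^ 2 ≤ {P : W.Point | n • P = 0}.ncard := by
  classical
  obtain ⟨x₀, hsep⟩ := ld_exists_separable (W := W) hΔ hn
  set G := ldA (ldPoly W) n - C x₀ * ldB (ldPoly W) n with hG
  obtain ⟨y₀, h₀⟩ := ld_exists_point hΔ x₀
  -- degree of `G`
  have hGtop : LdTop G (n ^ 2) 1 := by
    have hB := ldB_top W n
    have hlow : LdTop (C x₀ * ldB (ldPoly W) n) (n ^ 2) 0 :=
      LdTop.low (M := n ^ 2 - 1) ((natDegree_C_mul_le _ _).trans hB.deg)
        (by have : 0 < n ^ 2 := by positivity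
            omega)
    exact ((ldA_top W n).sub hlow).congr rfl (by ring)
  have hGdeg : G.natDegree = n ^ 2 :=
    le_antisymm hGtop.deg (le_natDegree_of_ne_zero (by rw [hGtop.top]; exact one_ne_zero))
  have hG0 : G ≠ 0 := by
    intro h0
    have := hGtop.top
    rw [h0, coeff_zero] at this
    exact zero_ne_one this
  have hcard : G.roots.toFinset.card = n ^ 2 := by
    rw [Multiset.toFinset_card_of_nodup (nodup_roots hsep),
      ← (IsAlgClosed.splits G).natDegree_eq_card_roots, hGdeg]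
  -- choose preimages
  have hex : ∀ a ∈ G.roots.toFinset, ∃ R : W.Point, n • R = Point.some x₀ y₀ h₀ ∧ xOf R = a := by
    intro a ha
    rw [Multiset.mem_toFinset, mem_roots hG0] at ha
    exact ld_exists_preimage hΔ n h₀ ha
  choose! g hg using hex
  have hne : G.roots.toFinset.Nonempty := by
    rw [← Finset.card_pos, hcard]; positivity
  obtain ⟨a₁, ha₁⟩ := hne
  rw [← hcard, ← Set.ncard_coe_finset]
  refine Set.ncard_le_ncard_of_injOn (fun a => g a - g a₁) ?_ ?_ hfin
  · intro a ha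
    have ha' : a ∈ G.roots.toFinset := ha
    change n • (g a - g a₁) = 0
    rw [smul_sub, (hg a ha').1, (hg a₁ ha₁).1, sub_self]
  · intro a ha b hb hab
    have ha' : a ∈ G.roots.toFinset := ha
    have hb' : b ∈ G.roots.toFinset := hb
    have : g a = g b := sub_left_injective hab
    rw [← (hg a ha').2, ← (hg b hb').2, this]

/-- **Torsion count**: for odd `n`, an elliptic curve over an algebraically closed field of
characteristic zero has exactly `n²` points killed by `n`. -/
theorem ld_torsion_ncard (hΔ : W.Δ ≠ 0) (m : ℕ) :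
    {P : W.Point | (2 * m + 1) • P = 0}.ncard = (2 * m + 1) ^ 2 := by
  obtain ⟨hfin, hle⟩ := ld_torsion_finite W m
  refine le_antisymm hle ?_
  rcases Nat.eq_zero_or_pos m with hm | hm
  · subst hm
    have : (0 : W.Point) ∈ {P : W.Point | (2 * 0 + 1) • P = 0} := by simp
    have hpos := (Set.ncard_pos hfin).mpr ⟨0, this⟩
    have e : (2 * 0 + 1) ^ 2 = 1 := by norm_num
    rw [e]
    exact hpos
  · exact ld_torsion_card_ge hΔ (by omega) hfin

/-- The same with `Nat.card` of the subtype. -/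
theorem ld_torsion_natCard (hΔ : W.Δ ≠ 0) (m : ℕ) :
    Nat.card {P : W.Point // (2 * m + 1) • P = 0} = (2 * m + 1) ^ 2 := by
  rw [← ld_torsion_ncard hΔ m]
  rfl

end lower

end Fermat.Agent.S13
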