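import Fermat.Prelude.Def_FLTPrelim_GaloisRep
import Fermat.Agent.S13.Ladder.Count

/-!
# S13 library, T1: the structure of `E[p]` in the prelude's `torsionBy` form

For `W'` over a commutative ring `R`, `K` an algebraically closed field of characteristic zero with
`(W'⁄K).Δ ≠ 0` and `n` odd: `Submodule.torsionBy ℤ (W'⁄K).Point n` has exactly `n²` elements; for an
odd prime `p` it is a `2`-dimensional `ZMod p`-vector space (for the prelude's module structure), in
particular nontrivial, and every submodule different from `⊥` and `⊤` is a line.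
-/

set_option autoImplicit false

namespace Fermat.Agent.S13

open WeierstrassCurve WeierstrassCurve.Affine WeierstrassCurve.Affine.Point

variable {R K : Type*} [CommRing R] [Field K] [DecidableEq K] [Algebra R K] [IsAlgClosed K]
  [CharZero K] (W' : Affine R)

/-- `|E[n]| = n²` for odd `n`. -/
theorem ld_natCard_torsionBy (hΔ : (W'⁄K).Δ ≠ 0) {n : ℕ} (hn : Odd n) :
    Nat.card (Submodule.torsionBy ℤ (W'⁄K).Point n) = n ^ 2 := by
  obtain ⟨m, rfl⟩ := hn
  rw [← ld_torsion_natCard (W := (W'⁄K)) hΔ m]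
  refine Nat.card_congr (Equiv.subtypeEquivRight fun P => ?_)
  rw [Submodule.mem_torsionBy_iff, natCast_zsmul]

/-- `E[n]` is finite for odd `n`. -/
theorem ld_finite_torsionBy (hΔ : (W'⁄K).Δ ≠ 0) {n : ℕ} (hn : Odd n) :
    Finite (Submodule.torsionBy ℤ (W'⁄K).Point n) := by
  apply Nat.finite_of_card_ne_zero
  rw [ld_natCard_torsionBy W' hΔ hn]
  obtain ⟨m, rfl⟩ := hn
  positivity

variable {p : ℕ} [Fact p.Prime]

/-- `E[p]` is `2`-dimensional over `ZMod p` (`p` an odd prime). -/
theorem ld_finrank_torsionBy (hΔ : (W'⁄K).Δ ≠ 0) (hp2 : p ≠ 2) :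
    Module.finrank (ZMod p) (Submodule.torsionBy ℤ (W'⁄K).Point p) = 2 := by
  have hp : p.Prime := Fact.out
  have hodd : Odd p := hp.odd_of_ne_two hp2
  have := ld_finite_torsionBy W' hΔ hodd
  have h1 := Module.natCard_eq_pow_finrank (K := ZMod p)
    (V := Submodule.torsionBy ℤ (W'⁄K).Point p)
  rw [ld_natCard_torsionBy W' hΔ hodd, Nat.card_zmod] at h1
  exact (Nat.pow_right_injective hp.two_le h1).symm

/-- `E[p]` is nontrivial. -/
theorem ld_nontrivial_torsionBy (hΔ : (W'⁄K).Δ ≠ 0) (hp2 : p ≠ 2) :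
    Nontrivial (Submodule.torsionBy ℤ (W'⁄K).Point p) := by
  have hp : p.Prime := Fact.out
  have hodd : Odd p := hp.odd_of_ne_two hp2
  have := ld_finite_torsionBy W' hΔ hodd
  rw [← Finite.one_lt_card_iff_nontrivial, ld_natCard_torsionBy W' hΔ hodd]
  have := hp.two_le
  nlinarith

/-- Every submodule of `E[p]` other than `⊥`, `⊤` is a line. -/
theorem ld_finrank_submodule (hΔ : (W'⁄K).Δ ≠ 0) (hp2 : p ≠ 2)
    (N : Submodule (ZMod p) (Submodule.torsionBy ℤ (W'⁄K).Point p)) (h0 : N ≠ ⊥) (h1 : N ≠ ⊤) :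
    Module.finrank (ZMod p) N = 1 := by
  have hp : p.Prime := Fact.out
  have hodd : Odd p := hp.odd_of_ne_two hp2
  have := ld_finite_torsionBy W' hΔ hodd
  have : Module.Finite (ZMod p) (Submodule.torsionBy ℤ (W'⁄K).Point p) := Module.Finite.of_finite
  have h2 := ld_finrank_torsionBy W' hΔ hp2
  have hlt : Module.finrank (ZMod p) N < 2 := by
    rw [← h2]
    exact Submodule.finrank_lt h1
  have hpos : 0 < Module.finrank (ZMod p) N := by
    rw [Module.finrank_pos_iff]
    exact (Submodule.nontrivial_iff_ne_bot).mpr h0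
  omega

end Fermat.Agent.S13
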