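import Fermat.Agent.S13.Ladder.Degree

/-!
# S13 library, T1: integrality of the ladder polynomials

If the `b`-invariants of `W` lie in a subring `S` of the base ring, then all coefficients of the
ladder polynomials `Aₙ`, `Bₙ`, `Cₘ` lie in `S`.  Also the base change formula for `ldPoly`.
-/

set_option autoImplicit false

namespace Fermat.Agent.S13

open Polynomial

variable {R R' : Type*} [CommRing R] [CommRing R']

/-- Base change of the polynomial ladder parameters. -/
lemma ldPoly_map (f : R →+* R') (W : WeierstrassCurve R) :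
    (ldPoly W).map (mapRingHom f) = ldPoly (W.map f) := by
  simp [ldPoly, LdPar.map]

lemma ldA_ldPoly_map (f : R →+* R') (W : WeierstrassCurve R) (n : ℕ) :
    (ldA (ldPoly W) n).map f = ldA (ldPoly (W.map f)) n := by
  have := ldA_map (mapRingHom f) (ldPoly W) n
  rwa [ldPoly_map, coe_mapRingHom] at this

lemma ldB_ldPoly_map (f : R →+* R') (W : WeierstrassCurve R) (n : ℕ) :
    (ldB (ldPoly W) n).map f = ldB (ldPoly (W.map f)) n := by
  have := ldB_map (mapRingHom f) (ldPoly W) n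
  rwa [ldPoly_map, coe_mapRingHom] at this

lemma ldC_ldPoly_map (f : R →+* R') (W : WeierstrassCurve R) (m : ℕ) :
    (ldC (ldPoly W) m).map f = ldC (ldPoly (W.map f)) m := by
  have := ldC_map (mapRingHom f) (ldPoly W) m
  rwa [ldPoly_map, coe_mapRingHom] at this

section subring

variable (S : Subring R) (W : WeierstrassCurve R) (h₂ : W.b₂ ∈ S) (h₄ : W.b₄ ∈ S)
  (h₆ : W.b₆ ∈ S) (h₈ : W.b₈ ∈ S)

/-- The ladder parameters over the subring. -/
noncomputable def ldPolySub : LdPar S[X] :=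
  ⟨C ⟨W.b₂, h₂⟩, C ⟨W.b₄, h₄⟩, C ⟨W.b₆, h₆⟩, C ⟨W.b₈, h₈⟩, X⟩

lemma ldPolySub_map :
    (ldPolySub S W h₂ h₄ h₆ h₈).map (mapRingHom S.subtype) = ldPoly W := by
  simp [ldPolySub, ldPoly, LdPar.map]

include h₂ h₄ h₆ h₈

/-- Coefficients of `Aₙ` lie in `S`. -/
theorem ldA_coeff_mem (n i : ℕ) : (ldA (ldPoly W) n).coeff i ∈ S := by
  have := ldA_map (mapRingHom S.subtype) (ldPolySub S W h₂ h₄ h₆ h₈) n
  rw [ldPolySub_map, coe_mapRingHom] at this
  rw [← this, coeff_map]
  exact SetLike.coe_mem _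

/-- Coefficients of `Bₙ` lie in `S`. -/
theorem ldB_coeff_mem (n i : ℕ) : (ldB (ldPoly W) n).coeff i ∈ S := by
  have := ldB_map (mapRingHom S.subtype) (ldPolySub S W h₂ h₄ h₆ h₈) n
  rw [ldPolySub_map, coe_mapRingHom] at this
  rw [← this, coeff_map]
  exact SetLike.coe_mem _

/-- Coefficients of `Cₘ` lie in `S`. -/
theorem ldC_coeff_mem (m i : ℕ) : (ldC (ldPoly W) m).coeff i ∈ S := by
  have := ldC_map (mapRingHom S.subtype) (ldPolySub S W h₂ h₄ h₆ h₈) m
  rw [ldPolySub_map, coe_mapRingHom] at this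
  rw [← this, coeff_map]
  exact SetLike.coe_mem _

end subring

/-- Valuation-subring form. -/
theorem ldC_coeff_mem_valuationSubring {K : Type*} [Field K] (A : ValuationSubring K)
    (W : WeierstrassCurve K) (h₂ : W.b₂ ∈ A) (h₄ : W.b₄ ∈ A) (h₆ : W.b₆ ∈ A) (h₈ : W.b₈ ∈ A)
    (m i : ℕ) : (ldC (ldPoly W) m).coeff i ∈ A :=
  ldC_coeff_mem A.toSubring W h₂ h₄ h₆ h₈ m i

end Fermat.Agent.S13
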