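import Fermat.Agent.S13.Ladder.Count

/-!
# S13 library, T1b: the polynomial `Cₘ` has simple roots, the `x`-coordinates of `E[2m+1] \ 0`

`K` algebraically closed of characteristic zero, `W.Δ ≠ 0`.  Then
`ldC (ldPoly W) m = -(2m+1) * ∏ r ∈ S, (X - r)` where `S` is the (finite) set of `x`-coordinates of
the nonzero points killed by `2m+1`.
-/

set_option autoImplicit false

namespace Fermat.Agent.S13

open Polynomial WeierstrassCurve WeierstrassCurve.Affine Fermat.Agent.S05

variable {K : Type*} [Field K] [DecidableEq K] [IsAlgClosed K] [CharZero K]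

/-- (T1a) in the architect's shape. -/
theorem ld_card_torsion (W : Affine K) (hΔ : W.Δ ≠ 0) {n : ℕ} (hn : Odd n) :
    Nat.card {T : W.Point // n • T = 0} = n ^ 2 := by
  obtain ⟨m, rfl⟩ := hn
  exact ld_torsion_natCard hΔ m

omit [IsAlgClosed K] [CharZero K] in
/-- The refined bound on the candidate set. -/
lemma ldCand_card_le_roots (W : Affine K) (m : ℕ) :
    (ldCand W m).card ≤ 2 * (ldC (ldPoly W) m).roots.toFinset.card := by
  refine (Finset.card_biUnion_le).trans ?_
  have h1 : ∀ x ∈ (ldC (ldPoly W) m).roots.toFinset,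
      ((ldYPoly W x).roots.toFinset.image fun y => (x, y)).card ≤ 2 := by
    intro x _
    refine Finset.card_image_le.trans ((Multiset.toFinset_card_le _).trans ?_)
    exact (card_roots' _).trans (ldYPoly_natDegree W x).le
  refine (Finset.sum_le_card_nsmul _ _ 2 h1).trans ?_
  rw [smul_eq_mul, mul_comm]

omit [IsAlgClosed K] in
/-- The torsion set injects into the candidate set plus one point. -/
lemma ld_torsion_ncard_le_cand (W : Affine K) (m : ℕ) :
    {P : W.Point | (2 * m + 1) • P = 0}.ncard ≤ (ldCand W m).card + 1 := by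
  classical
  set t : Finset (Option (K × K)) := insert none ((ldCand W m).image some) with ht
  have hmaps : ∀ P ∈ {P : W.Point | (2 * m + 1) • P = 0},
      ldCoord P ∈ (t : Set (Option (K × K))) := by
    intro P hP
    rcases P with _ | ⟨x, y, h⟩
    · simp [ldCoord, ht]
    · have := ld_mem_ldCand h hP
      simp only [ldCoord, ht, Finset.coe_insert, Finset.coe_image, Set.mem_insert_iff,
        Set.mem_image, Finset.mem_coe, reduceCtorEq, false_or]
      exact ⟨(x, y), this, rfl⟩
  have hinj : Set.InjOn (ldCoord (W := W)) {P : W.Point | (2 * m + 1) • P = 0} :=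
    ldCoord_injective.injOn
  refine (Set.ncard_le_ncard_of_injOn _ hmaps hinj t.finite_toSet).trans ?_
  rw [Set.ncard_coe_finset]
  refine (Finset.card_insert_le _ _).trans ?_
  exact Nat.succ_le_succ Finset.card_image_le

/-- `Cₘ` has `2m² + 2m` distinct roots, i.e. all its roots are simple. -/
theorem ldC_roots_nodup {W : Affine K} (hΔ : W.Δ ≠ 0) (m : ℕ) :
    (ldC (ldPoly W) m).roots.Nodup ∧
      Multiset.card (ldC (ldPoly W) m).roots = (ldC (ldPoly W) m).natDegree := by
  have hdeg := (ldC_natDegree W m).1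
  have h1 := ld_torsion_ncard hΔ m
  have h2 := ld_torsion_ncard_le_cand W m
  have h3 := ldCand_card_le_roots W m
  have h4 : (ldC (ldPoly W) m).roots.toFinset.card ≤ Multiset.card (ldC (ldPoly W) m).roots :=
    Multiset.toFinset_card_le _
  have h5 : Multiset.card (ldC (ldPoly W) m).roots ≤ (ldC (ldPoly W) m).natDegree :=
    card_roots' _
  have e : (2 * m + 1) ^ 2 = 2 * (2 * m ^ 2 + 2 * m) + 1 := by ring
  have h6 : (ldC (ldPoly W) m).roots.toFinset.card = Multiset.card (ldC (ldPoly W) m).roots := by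
    omega
  exact ⟨Multiset.toFinset_card_eq_card_iff_nodup.mp h6, by omega⟩

/-- **(T1b)** Vieta form: `Cₘ = -(2m+1) ∏_{r ∈ S} (X - r)`, `S` = the `x`-coordinates of the nonzero
points killed by `2m+1`. -/
theorem ld_vieta (W : Affine K) (hΔ : W.Δ ≠ 0) (m : ℕ) :
    ∃ S : Finset K,
      (∀ r, r ∈ S ↔ ∃ (y : K) (h : W.Nonsingular r y), (2 * m + 1) • Point.some r y h = 0) ∧
        ldC (ldPoly W) m = C (-((2 * m + 1 : ℕ) : K)) * ∏ r ∈ S, (X - C r) := by
  obtain ⟨hnd, hcard⟩ := ldC_roots_nodup hΔ m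
  obtain ⟨hdeg, hne⟩ := ldC_natDegree W m
  refine ⟨(ldC (ldPoly W) m).roots.toFinset, fun r => ?_, ?_⟩
  · rw [Multiset.mem_toFinset, mem_roots hne, IsRoot]
    constructor
    · intro hr
      obtain ⟨y, hy⟩ := ld_exists_point hΔ r
      exact ⟨y, hy, (ld_odd_nsmul_eq_zero_iff hy m).mpr hr⟩
    · rintro ⟨y, hy, hP⟩
      exact (ld_odd_nsmul_eq_zero_iff hy m).mp hP
  · have hlc : (ldC (ldPoly W) m).leadingCoeff = -((2 * m + 1 : ℕ) : K) := by
      rw [leadingCoeff, hdeg, (ldC_top W m).top]
    have := C_leadingCoeff_mul_prod_multiset_X_sub_C hcard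
    rw [hlc] at this
    rw [Finset.prod_eq_multiset_prod, Multiset.toFinset_val, hnd.dedup]
    exact this.symm

/-- The number of distinct `x`-coordinates of nonzero `(2m+1)`-torsion points. -/
theorem ld_vieta_card {W : Affine K} (hΔ : W.Δ ≠ 0) (m : ℕ) :
    (ldC (ldPoly W) m).roots.toFinset.card = 2 * m ^ 2 + 2 * m := by
  obtain ⟨hnd, hcard⟩ := ldC_roots_nodup hΔ m
  rw [Multiset.toFinset_card_of_nodup hnd, hcard, (ldC_natDegree W m).1]

end Fermat.Agent.S13
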