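import Mathlib

/-!
# S13 library, T1: Montgomery-ladder polynomials on the Kummer line — definitions

For parameters `β₂ β₄ β₆ β₈ x` in a commutative ring `S` (the `b`-invariants of a Weierstrass curve
and an `x`-coordinate) we define by binary recursion the *ladder state*
`(Aₙ, Bₙ, Aₙ₊₁, Bₙ₊₁)`, where `(Aₙ : Bₙ)` is meant to be the `x`-coordinate of `n • P` for a point
`P` with `x`-coordinate `x`:

* `(A₀, B₀) = (1, 0)`, `(A₁, B₁) = (x, 1)`;
* doubling: `A₂ₘ = A⁴ - β₄A²B² - 2β₆AB³ - β₈B⁴`, `B₂ₘ = B(4A³ + β₂A²B + 2β₄AB² + β₆B³)`;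
* differential addition (difference `= P`): `B₂ₘ₊₁ = (Aₘ₊₁Bₘ - AₘBₘ₊₁)²`,
  `A₂ₘ₊₁ = Sʰ - x B₂ₘ₊₁` with `Sʰ` the homogenised numerator of `x(P+Q) + x(P-Q)`.

No identity between these expressions is needed: they are pure recursive definitions.
-/

set_option autoImplicit false

namespace Fermat.Agent.S13

/-- Parameters of the ladder: the `b`-invariants and the base `x`-coordinate. -/
@[ext]
structure LdPar (S : Type*) where
  /-- `b₂` -/
  β₂ : S
  /-- `b₄` -/
  β₄ : S
  /-- `b₆` -/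
  β₆ : S
  /-- `b₈` -/
  β₈ : S
  /-- the `x`-coordinate of the base point -/
  x : S

/-- A ladder state `(Aₙ, Bₙ, Aₙ₊₁, Bₙ₊₁)`. -/
@[ext]
structure LdState (S : Type*) where
  /-- `Aₙ` -/
  a : S
  /-- `Bₙ` -/
  b : S
  /-- `Aₙ₊₁` -/
  a' : S
  /-- `Bₙ₊₁` -/
  b' : S

section

variable {S T : Type*} [CommRing S] [CommRing T]

/-- Image of ladder parameters under a ring homomorphism. -/
def LdPar.map (f : S →+* T) (p : LdPar S) : LdPar T :=
  ⟨f p.β₂, f p.β₄, f p.β₆, f p.β₈, f p.x⟩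

/-- Image of a ladder state under a ring homomorphism. -/
def LdState.map (f : S →+* T) (s : LdState S) : LdState T :=
  ⟨f s.a, f s.b, f s.a', f s.b'⟩

/-- Homogeneous numerator of the duplication formula. -/
def ldDupNum (p : LdPar S) (a b : S) : S :=
  a ^ 4 - p.β₄ * a ^ 2 * b ^ 2 - 2 * p.β₆ * a * b ^ 3 - p.β₈ * b ^ 4

/-- Homogeneous denominator of the duplication formula. -/
def ldDupDen (p : LdPar S) (a b : S) : S :=
  b * (4 * a ^ 3 + p.β₂ * a ^ 2 * b + 2 * p.β₄ * a * b ^ 2 + p.β₆ * b ^ 3)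

/-- Homogeneous numerator of `x(P+Q) + x(P-Q)`. -/
def ldSum (p : LdPar S) (a₁ b₁ a₂ b₂ : S) : S :=
  2 * a₁ * a₂ * (a₁ * b₂ + a₂ * b₁) + p.β₂ * a₁ * a₂ * b₁ * b₂ +
    p.β₄ * (a₁ * b₂ + a₂ * b₁) * b₁ * b₂ + p.β₆ * (b₁ * b₂) ^ 2

/-- Homogeneous form of `(x₁ - x₂)²`. -/
def ldDiff (a₁ b₁ a₂ b₂ : S) : S := (a₁ * b₂ - a₂ * b₁) ^ 2

/-- Numerator of the differential addition (difference = base point). -/
def ldAddNum (p : LdPar S) (a₁ b₁ a₂ b₂ : S) : S :=
  ldSum p a₁ b₁ a₂ b₂ - p.x * ldDiff a₁ b₁ a₂ b₂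

/-- One ladder step: from the state at `n` to the state at `2n` (`bit = false`) or `2n+1`
(`bit = true`). -/
def ldStep (p : LdPar S) (bit : Bool) (s : LdState S) : LdState S :=
  if bit then
    ⟨ldAddNum p s.a' s.b' s.a s.b, ldDiff s.a' s.b' s.a s.b,
      ldDupNum p s.a' s.b', ldDupDen p s.a' s.b'⟩
  else
    ⟨ldDupNum p s.a s.b, ldDupDen p s.a s.b,
      ldAddNum p s.a' s.b' s.a s.b, ldDiff s.a' s.b' s.a s.b⟩

/-- The initial state `(1, 0, x, 1)`. -/
def ldInit (p : LdPar S) : LdState S := ⟨1, 0, p.x, 1⟩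

lemma ldStep_false_init (p : LdPar S) : ldStep p false (ldInit p) = ldInit p := by
  simp only [ldStep, ldInit, ldDupNum, ldDupDen, ldAddNum, ldSum, ldDiff]
  ext
  · simp
  · simp
  · simp; ring
  · simp

/-- The ladder state at `n`, by binary recursion. -/
def ldState (p : LdPar S) : ℕ → LdState S
  | 0 => ldInit p
  | n + 1 => ldStep p ((n + 1) % 2 == 1) (ldState p ((n + 1) / 2))
termination_by n => n
decreasing_by omega

lemma ldState_zero (p : LdPar S) : ldState p 0 = ldInit p := by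
  rw [ldState]

lemma ldState_two_mul (p : LdPar S) (n : ℕ) :
    ldState p (2 * n) = ldStep p false (ldState p n) := by
  rcases n with _ | n
  · rw [mul_zero, ldState_zero, ldStep_false_init]
  · have h : 2 * (n + 1) = (2 * n + 1) + 1 := by ring
    rw [h, ldState]
    have h1 : (2 * n + 1 + 1) % 2 = 0 := by omega
    have h2 : (2 * n + 1 + 1) / 2 = n + 1 := by omega
    rw [h1, h2]
    rfl

lemma ldState_two_mul_add_one (p : LdPar S) (n : ℕ) :
    ldState p (2 * n + 1) = ldStep p true (ldState p n) := by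
  rw [ldState]
  have h1 : (2 * n + 1) % 2 = 1 := by omega
  have h2 : (2 * n + 1) / 2 = n := by omega
  rw [h1, h2]
  rfl

/-- **Induction principle** along the ladder. -/
theorem ldState_induction (p : LdPar S) (Inv : ℕ → LdState S → Prop)
    (h0 : Inv 0 (ldInit p))
    (heven : ∀ n s, Inv n s → Inv (2 * n) (ldStep p false s))
    (hodd : ∀ n s, Inv n s → Inv (2 * n + 1) (ldStep p true s)) :
    ∀ n, Inv n (ldState p n) := by
  intro n
  induction n using Nat.strong_induction_on with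
  | _ n ih =>
    rcases Nat.even_or_odd' n with ⟨m, hm | hm⟩
    · rcases m with _ | m
      · rw [hm, mul_zero, ldState_zero]; exact h0
      · rw [hm, ldState_two_mul]
        exact heven _ _ (ih _ (by omega))
    · rw [hm, ldState_two_mul_add_one]
      exact hodd _ _ (ih _ (by omega))

/-- The ladder commutes with ring homomorphisms. -/
lemma ldStep_map (f : S →+* T) (p : LdPar S) (bit : Bool) (s : LdState S) :
    (ldStep p bit s).map f = ldStep (p.map f) bit (s.map f) := by
  cases bit <;>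
  simp only [ldStep, LdState.map, LdPar.map, ldDupNum, ldDupDen, ldAddNum, ldSum, ldDiff,
    map_sub, map_add, map_mul, map_pow, map_ofNat, if_true, if_false, Bool.false_eq_true]

lemma ldState_map (f : S →+* T) (p : LdPar S) (n : ℕ) :
    (ldState p n).map f = ldState (p.map f) n := by
  refine ldState_induction p (fun n s => s.map f = ldState (p.map f) n) ?_ ?_ ?_ n
  · rw [ldState_zero]
    simp [ldInit, LdState.map, LdPar.map]
  · intro n s hs
    rw [ldStep_map, hs, ldState_two_mul]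
  · intro n s hs
    rw [ldStep_map, hs, ldState_two_mul_add_one]

/-- Consistency: the second half of the state at `n` is the first half of the state at `n+1`. -/
lemma ldState_succ (p : LdPar S) (n : ℕ) :
    (ldState p (n + 1)).a = (ldState p n).a' ∧ (ldState p (n + 1)).b = (ldState p n).b' := by
  induction n using Nat.strong_induction_on with
  | _ n ih =>
    rcases Nat.even_or_odd' n with ⟨m, hm | hm⟩
    · rw [hm, ldState_two_mul_add_one, ldState_two_mul]
      simp [ldStep]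
    · have h2 : n + 1 = 2 * (m + 1) := by omega
      rw [h2, ldState_two_mul, hm, ldState_two_mul_add_one]
      have := ih m (by omega)
      simp only [ldStep, if_true, if_false, Bool.false_eq_true]
      rw [this.1, this.2]
      exact ⟨rfl, rfl⟩

/-- `Aₙ`. -/
def ldA (p : LdPar S) (n : ℕ) : S := (ldState p n).a

/-- `Bₙ`. -/
def ldB (p : LdPar S) (n : ℕ) : S := (ldState p n).b

lemma ldState_eq (p : LdPar S) (n : ℕ) :
    ldState p n = ⟨ldA p n, ldB p n, ldA p (n + 1), ldB p (n + 1)⟩ := by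
  ext
  · rfl
  · rfl
  · exact (ldState_succ p n).1.symm
  · exact (ldState_succ p n).2.symm

@[simp] lemma ldA_zero (p : LdPar S) : ldA p 0 = 1 := by rw [ldA, ldState_zero]; rfl
@[simp] lemma ldB_zero (p : LdPar S) : ldB p 0 = 0 := by rw [ldB, ldState_zero]; rfl
@[simp] lemma ldA_one (p : LdPar S) : ldA p 1 = p.x := by
  rw [ldA, (ldState_succ p 0).1, ldState_zero]; rfl
@[simp] lemma ldB_one (p : LdPar S) : ldB p 1 = 1 := by
  rw [ldB, (ldState_succ p 0).2, ldState_zero]; rfl

lemma ldA_two_mul (p : LdPar S) (n : ℕ) :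
    ldA p (2 * n) = ldDupNum p (ldA p n) (ldB p n) := by
  rw [ldA, ldState_two_mul]; rfl

lemma ldB_two_mul (p : LdPar S) (n : ℕ) :
    ldB p (2 * n) = ldDupDen p (ldA p n) (ldB p n) := by
  rw [ldB, ldState_two_mul]; rfl

lemma ldA_two_mul_add_one (p : LdPar S) (n : ℕ) :
    ldA p (2 * n + 1) = ldAddNum p (ldA p (n + 1)) (ldB p (n + 1)) (ldA p n) (ldB p n) := by
  rw [ldA, ldState_two_mul_add_one, ldState_eq p n]; rfl

lemma ldB_two_mul_add_one (p : LdPar S) (n : ℕ) :
    ldB p (2 * n + 1) = ldDiff (ldA p (n + 1)) (ldB p (n + 1)) (ldA p n) (ldB p n) := by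
  rw [ldB, ldState_two_mul_add_one, ldState_eq p n]; rfl

/-- The square root `Cₙ` of `Bₙ` for odd `n = 2m+1`: `C = Aₘ₊₁Bₘ - AₘBₘ₊₁`. -/
def ldC (p : LdPar S) (m : ℕ) : S :=
  ldA p (m + 1) * ldB p m - ldA p m * ldB p (m + 1)

lemma ldB_two_mul_add_one_eq_sq (p : LdPar S) (m : ℕ) : ldB p (2 * m + 1) = ldC p m ^ 2 := by
  rw [ldB_two_mul_add_one, ldDiff, ldC]

lemma ldA_map (f : S →+* T) (p : LdPar S) (n : ℕ) : f (ldA p n) = ldA (p.map f) n := by
  have := ldState_map f p n
  exact congrArg LdState.a this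

lemma ldB_map (f : S →+* T) (p : LdPar S) (n : ℕ) : f (ldB p n) = ldB (p.map f) n := by
  have := ldState_map f p n
  exact congrArg LdState.b this

lemma ldC_map (f : S →+* T) (p : LdPar S) (m : ℕ) : f (ldC p m) = ldC (p.map f) m := by
  simp only [ldC, map_sub, map_mul, ldA_map, ldB_map]

end

end Fermat.Agent.S13
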