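import Fermat.Agent.S13.Ladder.Defs
import Fermat.Agent.S05.Kummer

/-!
# S13 library, T1: the ladder theorem

For a nonsingular affine point `P₀ = (x₀, y₀)` of a Weierstrass curve over a field, the ladder
state at `n` (with parameters the `b`-invariants and `x₀`) represents the `x`-coordinates of
`n • P₀` and `(n+1) • P₀` as points of `ℙ¹`:  `(Aₙ, Bₙ) ≠ (0, 0)`, `n • P₀ = 0 ↔ Bₙ = 0`, and
`x(n • P₀) * Bₙ = Aₙ` otherwise.
-/

set_option autoImplicit false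

namespace Fermat.Agent.S13

open WeierstrassCurve WeierstrassCurve.Affine Fermat.Agent.S05

variable {F : Type*} [Field F] {W : Affine F}

/-- The ladder parameters attached to a curve and an `x`-coordinate. -/
def ldParOf (W : Affine F) (x : F) : LdPar F := ⟨W.b₂, W.b₄, W.b₆, W.b₈, x⟩

/-- `(a : b)` represents the `x`-coordinate of `Q` in `ℙ¹`. -/
def LdRep (Q : W.Point) (a b : F) : Prop :=
  match Q with
  | .zero => a ≠ 0 ∧ b = 0
  | .some u _ _ => b ≠ 0 ∧ u * b = a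

lemma ldRep_zero {a b : F} : LdRep (0 : W.Point) a b ↔ a ≠ 0 ∧ b = 0 := Iff.rfl

lemma ldRep_some {u w : F} (h : W.Nonsingular u w) {a b : F} :
    LdRep (Point.some u w h) a b ↔ b ≠ 0 ∧ u * b = a := Iff.rfl

lemma LdRep.ne_zero {Q : W.Point} {a b : F} (h : LdRep Q a b) : a ≠ 0 ∨ b ≠ 0 := by
  rcases Q with _ | ⟨u, w, hq⟩
  · exact Or.inl h.1
  · exact Or.inr h.1

lemma LdRep.eq_zero_iff {Q : W.Point} {a b : F} (h : LdRep Q a b) : Q = 0 ↔ b = 0 := by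
  rcases Q with _ | ⟨u, w, hq⟩
  · exact ⟨fun _ => h.2, fun _ => rfl⟩
  · exact ⟨fun h0 => absurd h0 (Point.some_ne_zero hq), fun hb => absurd hb h.1⟩

lemma LdRep.mul_eq {u w : F} {hq : W.Nonsingular u w} {a b : F}
    (h : LdRep (Point.some u w hq) a b) : u * b = a := h.2

/-- At a nonsingular point with `ψ₂² = 0` the duplication numerator does not vanish. -/
lemma ld_dupNum_ne_zero {u w : F} (h : W.Nonsingular u w) (h0 : psi2Sq W u = 0) :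
    dupNum W u ≠ 0 := by
  have hη : 2 * w + W.a₁ * u + W.a₃ = 0 := by
    have := psi2_sq_eq h.1
    rw [h0] at this
    exact pow_eq_zero_iff two_ne_zero |>.mp this
  obtain ⟨he, hns⟩ := (nonsingular_iff' ..).mp h
  have hM : W.a₁ * w - (3 * u ^ 2 + 2 * W.a₂ * u + W.a₄) ≠ 0 := by
    rcases hns with hns | hns
    · exact hns
    · exact absurd hη hns
  have e := (Affine.equation_iff ..).mp he
  have key : dupNum W u = (W.a₁ * w - (3 * u ^ 2 + 2 * W.a₂ * u + W.a₄)) ^ 2 := by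
    simp only [dupNum, WeierstrassCurve.b₄, WeierstrassCurve.b₆, WeierstrassCurve.b₈]
    linear_combination (W.a₁ ^ 2 + 4 * W.a₂ + 8 * u) * e +
      (W.a₁ * (3 * u ^ 2 + 2 * W.a₂ * u + W.a₄ - W.a₁ * w) -
        (W.a₂ + 2 * u) * (2 * w + W.a₁ * u + W.a₃)) * hη
  rw [key]
  exact pow_ne_zero 2 hM

lemma ldDupNum_of_mul (W : Affine F) (x₀ u b : F) :
    ldDupNum (ldParOf W x₀) (u * b) b = b ^ 4 * dupNum W u := by
  simp only [ldDupNum, ldParOf, dupNum]; ring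

lemma ldDupDen_of_mul (W : Affine F) (x₀ u b : F) :
    ldDupDen (ldParOf W x₀) (u * b) b = b ^ 4 * psi2Sq W u := by
  simp only [ldDupDen, ldParOf, psi2Sq]; ring

lemma ldSum_of_mul (W : Affine F) (x₀ u₁ b₁ u₂ b₂ : F) :
    ldSum (ldParOf W x₀) (u₁ * b₁) b₁ (u₂ * b₂) b₂ = (b₁ * b₂) ^ 2 * sumNum W u₁ u₂ := by
  simp only [ldSum, ldParOf, sumNum]; ring

lemma ldDiff_of_mul (u₁ b₁ u₂ b₂ : F) :
    ldDiff (u₁ * b₁) b₁ (u₂ * b₂) b₂ = (b₁ * b₂) ^ 2 * (u₁ - u₂) ^ 2 := by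
  simp only [ldDiff]; ring

variable [DecidableEq F]

/-- **Doubling lemma.** -/
lemma LdRep.dbl (x₀ : F) {Q : W.Point} {a b : F} (h : LdRep Q a b) :
    LdRep ((2 : ℕ) • Q) (ldDupNum (ldParOf W x₀) a b) (ldDupDen (ldParOf W x₀) a b) := by
  rcases Q with _ | ⟨u, w, hq⟩
  · obtain ⟨ha, hb⟩ := h
    change LdRep ((2 : ℕ) • (0 : W.Point)) _ _
    rw [smul_zero, ldRep_zero, hb]
    refine ⟨?_, ?_⟩
    · simp only [ldDupNum]
      simpa using ha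
    · simp [ldDupDen]
  · obtain ⟨hb, hab⟩ := h
    rw [← hab, ldDupNum_of_mul, ldDupDen_of_mul]
    have hb4 : b ^ 4 ≠ 0 := pow_ne_zero 4 hb
    rcases two_nsmul_some hq with ⟨h0, h2⟩ | ⟨h0, x', y', h', h2, hx'⟩
    · rw [h2, ldRep_zero, h0, mul_zero]
      exact ⟨mul_ne_zero hb4 (ld_dupNum_ne_zero hq h0), rfl⟩
    · rw [h2, ldRep_some]
      refine ⟨mul_ne_zero hb4 h0, ?_⟩
      rw [← hx']; ring

/-- **Differential addition lemma**: if `Q₁ - Q₂` is the affine point `(x₀, y₀)`. -/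
lemma LdRep.add {x₀ y₀ : F} (h₀ : W.Nonsingular x₀ y₀) {Q₁ Q₂ : W.Point}
    (hd : Q₁ - Q₂ = Point.some x₀ y₀ h₀) {a₁ b₁ a₂ b₂ : F} (h₁ : LdRep Q₁ a₁ b₁)
    (h₂ : LdRep Q₂ a₂ b₂) :
    LdRep (Q₁ + Q₂) (ldAddNum (ldParOf W x₀) a₁ b₁ a₂ b₂) (ldDiff a₁ b₁ a₂ b₂) := by
  rcases Q₂ with _ | ⟨u₂, w₂, hq₂⟩
  · -- `Q₂ = 0`, `Q₁ = P₀`
    change Q₁ - 0 = _ at hd
    rw [sub_zero] at hd
    subst hd
    change LdRep (Point.some x₀ y₀ h₀ + 0) _ _
    rw [add_zero]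
    obtain ⟨ha₂, hb₂⟩ := h₂
    obtain ⟨hb₁, hab₁⟩ := h₁
    rw [ldRep_some]
    subst hb₂
    rw [← hab₁]
    refine ⟨?_, ?_⟩
    · simp only [ldDiff, mul_zero, zero_sub, neg_sq]
      exact pow_ne_zero 2 (mul_ne_zero ha₂ hb₁)
    · simp only [ldAddNum, ldSum, ldDiff, ldParOf]; ring
  rcases Q₁ with _ | ⟨u₁, w₁, hq₁⟩
  · -- `Q₁ = 0`, `Q₂ = -P₀`
    change 0 - Point.some u₂ w₂ hq₂ = _ at hd
    rw [zero_sub, Point.neg_some] at hd
    have hu : u₂ = x₀ := by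
      injection hd
    change LdRep (0 + Point.some u₂ w₂ hq₂) _ _
    rw [zero_add, ldRep_some]
    obtain ⟨ha₁, hb₁⟩ := h₁
    obtain ⟨hb₂, hab₂⟩ := h₂
    subst hb₁
    rw [← hab₂, ← hu]
    refine ⟨?_, ?_⟩
    · simp only [ldDiff, mul_zero, sub_zero]
      exact pow_ne_zero 2 (mul_ne_zero ha₁ hb₂)
    · simp only [ldAddNum, ldSum, ldDiff, ldParOf]; ring
  -- both affine
  obtain ⟨hb₁, hab₁⟩ := h₁
  obtain ⟨hb₂, hab₂⟩ := h₂
  have hbb : (b₁ * b₂) ^ 2 ≠ 0 := pow_ne_zero 2 (mul_ne_zero hb₁ hb₂)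
  rw [← hab₁, ← hab₂]
  simp only [ldAddNum]
  rw [ldSum_of_mul, ldDiff_of_mul]
  simp only [ldParOf]
  by_cases hne : u₁ = u₂
  · -- `Q₁ = -Q₂`
    have hw : w₁ = W.negY u₂ w₂ := by
      by_contra hw
      have hww : w₁ = w₂ := Y_eq_of_Y_ne hq₁.1 hq₂.1 hne hw
      subst hne hww
      change Point.some u₁ w₁ hq₁ - Point.some u₁ w₁ hq₂ = _ at hd
      rw [sub_self] at hd
      exact Point.some_ne_zero h₀ hd.symm
    have hsum : Point.some u₁ w₁ hq₁ + Point.some u₂ w₂ hq₂ = 0 := Point.add_of_Y_eq hne hw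
    change LdRep (Point.some u₁ w₁ hq₁ + Point.some u₂ w₂ hq₂) _ _
    rw [hsum, ldRep_zero]
    subst hne
    have hww : w₁ ≠ w₂ := by
      intro hww
      subst hww
      change Point.some u₁ w₁ hq₁ - Point.some u₁ w₁ hq₂ = _ at hd
      rw [sub_self] at hd
      exact Point.some_ne_zero h₀ hd.symm
    have hpsi : psi2Sq W u₁ ≠ 0 := by
      rw [← psi2_sq_eq hq₂.1]
      apply pow_ne_zero
      intro h0
      apply hww
      rw [hw, negY]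
      linear_combination -h0
    refine ⟨?_, by ring⟩
    have : sumNum W u₁ u₁ = psi2Sq W u₁ := by simp only [sumNum, psi2Sq]; ring
    rw [this, sub_self]
    simpa using mul_ne_zero hbb hpsi
  · obtain ⟨xp, yp, hp, xm, ym, hm, hadd, hsub, hs, -⟩ := add_sub_of_X_ne hq₁ hq₂ hne
    change Point.some u₁ w₁ hq₁ - Point.some u₂ w₂ hq₂ = _ at hd
    rw [hsub] at hd
    have hxm : xm = x₀ := by injection hd
    change LdRep (Point.some u₁ w₁ hq₁ + Point.some u₂ w₂ hq₂) _ _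
    rw [hadd, ldRep_some]
    refine ⟨mul_ne_zero hbb (pow_ne_zero 2 (sub_ne_zero.mpr hne)), ?_⟩
    rw [← hxm]
    linear_combination ((b₁ * b₂) ^ 2) * hs

/-- **The ladder theorem.** -/
theorem ld_rep {x₀ y₀ : F} (h₀ : W.Nonsingular x₀ y₀) (n : ℕ) :
    LdRep (n • Point.some x₀ y₀ h₀) (ldState (ldParOf W x₀) n).a (ldState (ldParOf W x₀) n).b ∧
      LdRep ((n + 1) • Point.some x₀ y₀ h₀) (ldState (ldParOf W x₀) n).a'
        (ldState (ldParOf W x₀) n).b' := by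
  set P₀ : W.Point := Point.some x₀ y₀ h₀ with hP₀
  refine ldState_induction (ldParOf W x₀)
    (fun n s => LdRep (n • P₀) s.a s.b ∧ LdRep ((n + 1) • P₀) s.a' s.b') ?_ ?_ ?_ n
  · refine ⟨?_, ?_⟩
    · rw [zero_smul]
      exact ⟨one_ne_zero, rfl⟩
    · rw [zero_add, one_smul, hP₀, ldRep_some]
      exact ⟨one_ne_zero, by simp [ldInit, ldParOf]⟩
  · intro n s ⟨hs, hs'⟩
    have hd : (n + 1) • P₀ - n • P₀ = Point.some x₀ y₀ h₀ := by
      rw [succ_nsmul, add_sub_cancel_left]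
    refine ⟨?_, ?_⟩
    · have := hs.dbl x₀
      rw [smul_smul] at this
      exact this
    · have := LdRep.add h₀ hd hs' hs
      have e : (n + 1) • P₀ + n • P₀ = (2 * n + 1) • P₀ := by
        rw [← add_nsmul]; congr 1; ring
      rw [e] at this
      exact this
  · intro n s ⟨hs, hs'⟩
    have hd : (n + 1) • P₀ - n • P₀ = Point.some x₀ y₀ h₀ := by
      rw [succ_nsmul, add_sub_cancel_left]
    refine ⟨?_, ?_⟩
    · have := LdRep.add h₀ hd hs' hs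
      have e : (n + 1) • P₀ + n • P₀ = (2 * n + 1) • P₀ := by
        rw [← add_nsmul]; congr 1; ring
      rw [e] at this
      exact this
    · have := hs'.dbl x₀
      rw [smul_smul] at this
      have e : 2 * (n + 1) = 2 * n + 1 + 1 := by ring
      rw [e] at this
      exact this

/-- `(Aₙ(x₀) : Bₙ(x₀))` represents `x(n • P₀)`. -/
theorem ld_rep' {x₀ y₀ : F} (h₀ : W.Nonsingular x₀ y₀) (n : ℕ) :
    LdRep (n • Point.some x₀ y₀ h₀) (ldA (ldParOf W x₀) n) (ldB (ldParOf W x₀) n) :=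
  (ld_rep h₀ n).1

/-- `n • P₀ = 0 ↔ Bₙ(x₀) = 0`. -/
theorem ld_nsmul_eq_zero_iff {x₀ y₀ : F} (h₀ : W.Nonsingular x₀ y₀) (n : ℕ) :
    n • Point.some x₀ y₀ h₀ = 0 ↔ ldB (ldParOf W x₀) n = 0 :=
  (ld_rep' h₀ n).eq_zero_iff

/-- `Aₙ(x₀)` and `Bₙ(x₀)` do not vanish simultaneously. -/
theorem ld_ne_zero {x₀ y₀ : F} (h₀ : W.Nonsingular x₀ y₀) (n : ℕ) :
    ldA (ldParOf W x₀) n ≠ 0 ∨ ldB (ldParOf W x₀) n ≠ 0 :=
  (ld_rep' h₀ n).ne_zero

/-- `x(n • P₀) * Bₙ(x₀) = Aₙ(x₀)`. -/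
theorem ld_x_nsmul {x₀ y₀ : F} (h₀ : W.Nonsingular x₀ y₀) (n : ℕ) {u w : F}
    {hq : W.Nonsingular u w} (hn : n • Point.some x₀ y₀ h₀ = Point.some u w hq) :
    ldB (ldParOf W x₀) n ≠ 0 ∧ u * ldB (ldParOf W x₀) n = ldA (ldParOf W x₀) n := by
  have := ld_rep' h₀ n
  rw [hn] at this
  exact this

end Fermat.Agent.S13
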